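/-
S15 / Dict / AN : the function whose vanishing is the `℘(z+w) + ℘(z-w)` formula; soft properties.
Architect helper260.
-/
import Fermat.Agent.S15.Dict.AN.Tools.POrder

set_option autoImplicit false

namespace Fermat.Agent.S15.Dict.AN

open Filter Topology

/-- `(℘(z+w) + ℘(z-w)) (℘z - ℘w)² - (2 (℘z ℘w - g₂/4)(℘z + ℘w) - g₃)`. -/
noncomputable def addSubFun (L : PeriodPair) (w z : ℂ) : ℂ :=
  (L.weierstrassP (z + w) + L.weierstrassP (z - w)) * (L.weierstrassP z - L.weierstrassP w) ^ 2
    - (2 * (L.weierstrassP z * L.weierstrassP w - L.g₂ / 4)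
        * (L.weierstrassP z + L.weierstrassP w) - L.g₃)

variable (L : PeriodPair) (w : ℂ)

theorem Defs_meromorphic_P_comp_add (c : ℂ) : Meromorphic (fun z => L.weierstrassP (z + c)) := by
  intro z
  have h1 : AnalyticAt ℂ (fun z : ℂ => z + c) z := by fun_prop
  exact MeromorphicAt.comp_analyticAt (f := L.weierstrassP) (g := fun z : ℂ => z + c)
    (L.meromorphic_weierstrassP (z + c)) h1

theorem meromorphic_addSubFun : Meromorphic (addSubFun L w) := by
  have h0 : Meromorphic L.weierstrassP := L.meromorphic_weierstrassP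
  have h1 : Meromorphic (fun z => L.weierstrassP (z + w)) := Defs_meromorphic_P_comp_add L w
  have h2 : Meromorphic (fun z => L.weierstrassP (z - w)) := by
    simpa only [sub_eq_add_neg] using Defs_meromorphic_P_comp_add L (-w)
  unfold addSubFun
  fun_prop

theorem addSubFun_add_mem (z : ℂ) : ∀ l ∈ L.lattice, addSubFun L w (z + l) = addSubFun L w z := by
  intro l hl
  unfold addSubFun
  rw [add_right_comm z l w, add_sub_right_comm z l w, P_add_mem L _ hl, P_add_mem L _ hl,
    P_add_mem L _ hl]

theorem addSubFun_neg (z : ℂ) : addSubFun L w (-z) = addSubFun L w z := by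
  unfold addSubFun
  have h1 : -z + w = -(z - w) := by ring
  have h2 : -z - w = -(z + w) := by ring
  rw [h1, h2, L.weierstrassP_neg, L.weierstrassP_neg, L.weierstrassP_neg]
  ring

theorem analyticAt_addSubFun {z : ℂ} (hz : z ∉ L.lattice) (h1 : z + w ∉ L.lattice)
    (h2 : z - w ∉ L.lattice) : AnalyticAt ℂ (addSubFun L w) z := by
  have a0 : AnalyticAt ℂ L.weierstrassP z := analyticAt_P L hz
  have a1 : AnalyticAt ℂ (fun z => L.weierstrassP (z + w)) z :=
    AnalyticAt.fun_comp (analyticAt_P L h1) (by fun_prop)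
  have a2 : AnalyticAt ℂ (fun z => L.weierstrassP (z - w)) z :=
    AnalyticAt.fun_comp (analyticAt_P L h2) (by fun_prop)
  unfold addSubFun
  fun_prop

end Fermat.Agent.S15.Dict.AN
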