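/-
S15 / Dict / AN : `addSubFun` vanishes at the half periods.  Architect helper260.
-/
import Fermat.Agent.S15.Dict.AN.AddSub.Defs
import Fermat.Agent.S15.Dict.AN.Half.Alg

set_option autoImplicit false

namespace Fermat.Agent.S15.Dict.AN

/-- With `p = ℘ w`, `e_i = ℘ h_i`, `v = ℘(w + h₁)`: `℘(h₁ + w) = ℘(h₁ - w) = v`
(`P_eq_of_add_mem`/`P_eq_of_sub_mem`, `2h₁ ∈ Λ`), `(v - e₁)(p - e₁) = (e₁-e₂)(e₁-e₃)`
(`IsHalf.mul_eq`), and Vieta (`sum_e, g₂_eq, g₃_eq`):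
`2 v (e₁ - p)² - (2 (e₁ p - g₂/4)(e₁ + p) - g₃) = 0` by `linear_combination`. -/
theorem addSubFun_half {L : PeriodPair} {h₁ h₂ h₃ : ℂ} (H : IsHalf L h₁ h₂ h₃) {w : ℂ}
    (hw : w ∉ L.lattice) (hw1 : w + h₁ ∉ L.lattice) : addSubFun L w h₁ = 0 := by
  have h1 : L.weierstrassP (h₁ + w) = L.weierstrassP (w + h₁) := by rw [add_comm]
  have h2 : L.weierstrassP (h₁ - w) = L.weierstrassP (w + h₁) := by
    apply P_eq_of_add_mem
    have : h₁ - w + (w + h₁) = 2 * h₁ := by ring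
    rw [this]
    exact H.two₁
  have hm := H.mul_eq hw hw1
  have hs := H.sum_e
  have hg2 := H.g₂_eq
  have hg3 := H.g₃_eq
  unfold addSubFun
  rw [h1, h2]
  linear_combination 2 * (L.weierstrassP w - L.weierstrassP h₁) * hm
    + (L.weierstrassP h₁ + L.weierstrassP w) / 2 * hg2 + hg3
    - 4 * L.weierstrassP h₁ * L.weierstrassP w * hs

end Fermat.Agent.S15.Dict.AN
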