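/-
S15 / Dict / AN : `addSubFun` has no pole off the lattice.  Architect helper260.
-/
import Fermat.Agent.S15.Dict.AN.AddSub.Defs

set_option autoImplicit false

namespace Fermat.Agent.S15.Dict.AN

open Filter Topology

/-- one of the two products `℘(· + a) (℘ - ℘ w)²`, `a = ± w`. -/
theorem OrderOff_term (L : PeriodPair) (w a : ℂ) {z : ℂ} (hz : z ∉ L.lattice)
    (ha : z + a ∈ L.lattice → L.weierstrassP z = L.weierstrassP w) :
    MeromorphicAt (fun t => L.weierstrassP (t + a) *
      ((L.weierstrassP t - L.weierstrassP w) * (L.weierstrassP t - L.weierstrassP w))) z ∧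
    ((0 : ℤ) : WithTop ℤ) ≤ meromorphicOrderAt (fun t => L.weierstrassP (t + a) *
      ((L.weierstrassP t - L.weierstrassP w) * (L.weierstrassP t - L.weierstrassP w))) z := by
  have hD : AnalyticAt ℂ (fun t => L.weierstrassP t - L.weierstrassP w) z :=
    (analyticAt_P L hz).sub analyticAt_const
  have hshift : AnalyticAt ℂ (fun t : ℂ => t + a) z := analyticAt_id.add analyticAt_const
  have hA : MeromorphicAt (fun t => L.weierstrassP (t + a)) z :=
    MeromorphicAt.comp_analyticAt (g := fun t : ℂ => t + a) (L.meromorphic_weierstrassP (z + a))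
      hshift
  have hDD : MeromorphicAt (fun t => (L.weierstrassP t - L.weierstrassP w) *
      (L.weierstrassP t - L.weierstrassP w)) z := (hD.mul hD).meromorphicAt
  refine ⟨hA.mul hDD, ?_⟩
  by_cases h : z + a ∈ L.lattice
  · have h1 : ((1 : ℤ) : WithTop ℤ) ≤
        meromorphicOrderAt (fun t => L.weierstrassP t - L.weierstrassP w) z :=
      one_le_order_P_sub L hz (ha h)
    have h2 := order_mul_ge hD.meromorphicAt hD.meromorphicAt h1 h1
    have h3 : ((-2 : ℤ) : WithTop ℤ) ≤ meromorphicOrderAt (fun t => L.weierstrassP (t + a)) z := by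
      rw [order_comp_add, L.order_weierstrassP _ h]
      rfl
    exact order_mul_ge hA hDD h3 h2
  · have hA' : AnalyticAt ℂ (fun t => L.weierstrassP (t + a)) z :=
      AnalyticAt.fun_comp (f := fun t : ℂ => t + a) (analyticAt_P L h) hshift
    exact (hA'.mul (hD.mul hD)).meromorphicOrderAt_nonneg

/-- For `z ∉ Λ`: write `addSubFun = A·C + B·C - R` with `A = ℘(·+w)`, `B = ℘(·-w)`,
`C = (℘ - ℘w)²`, `R` analytic at `z`.  `A` has order `≥ -2` at `z` (it is `-2` if `z + w ∈ Λ`
(`order_comp_add`, `PeriodPair.order_weierstrassP`), `≥ 0` otherwise).  If `z + w ∈ Λ` then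
`℘ z = ℘ w` (`P_eq_of_add_mem`) so `℘ - ℘w` has order `≥ 1` at `z` (`one_le_order_P_sub`) and `C`
order `≥ 2`; so `A·C` has order `≥ 0` in both cases.  The same for `B·C`. -/
theorem order_addSubFun_nonneg (L : PeriodPair) (w : ℂ) {z : ℂ} (hz : z ∉ L.lattice) :
    0 ≤ meromorphicOrderAt (addSubFun L w) z := by
  obtain ⟨m1, o1⟩ := OrderOff_term L w w hz (fun h => P_eq_of_add_mem L h)
  obtain ⟨m2, o2⟩ := OrderOff_term L w (-w) hz
    (fun h => P_eq_of_sub_mem L (by rwa [sub_eq_add_neg]))
  have hP : AnalyticAt ℂ L.weierstrassP z := analyticAt_P L hz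
  have hR : AnalyticAt ℂ (fun t => 2 * (L.weierstrassP t * L.weierstrassP w - L.g₂ / 4)
        * (L.weierstrassP t + L.weierstrassP w) - L.g₃) z :=
    ((analyticAt_const.mul ((hP.mul analyticAt_const).sub analyticAt_const)).mul
      (hP.add analyticAt_const)).sub analyticAt_const
  have h1 := order_add_ge m1 m2 o1 o2
  have h2 := order_sub_ge (m1.add m2) hR.meromorphicAt h1 hR.meromorphicOrderAt_nonneg
  have e : addSubFun L w = fun t => (L.weierstrassP (t + w) *
      ((L.weierstrassP t - L.weierstrassP w) * (L.weierstrassP t - L.weierstrassP w)) +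
      L.weierstrassP (t + -w) *
      ((L.weierstrassP t - L.weierstrassP w) * (L.weierstrassP t - L.weierstrassP w))) -
      (2 * (L.weierstrassP t * L.weierstrassP w - L.g₂ / 4)
        * (L.weierstrassP t + L.weierstrassP w) - L.g₃) := by
    funext t
    unfold addSubFun
    rw [← sub_eq_add_neg]
    ring
  rw [e]
  exact h2

end Fermat.Agent.S15.Dict.AN
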