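/-
S15 / Dict / AN : `addSubFun` has order `≥ -2` at `0`.  Architect helper260.
(proofs: helper80)
-/
import Fermat.Agent.S15.Dict.AN.AddSub.Defs

set_option autoImplicit false

namespace Fermat.Agent.S15.Dict.AN

open Filter Topology

/-- `z⁴ · addSubFun L w z → 0` as `z → 0`.  With `u(z) = z² ℘(z) → 1` (`tendsto_sq_mul_P`, `l = 0`):
`z⁴ addSubFun = (℘(z+w) + ℘(z-w)) (u - z² ℘w)² - (2 (u ℘w - z² g₂/4)(u + z² ℘w) - z⁴ g₃)`
`→ 2℘w - 2℘w = 0` (`℘` is continuous at `± w`, `℘(-w) = ℘ w`). -/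
theorem tendsto_pow_four_mul_addSubFun (L : PeriodPair) {w : ℂ} (hw : w ∉ L.lattice) :
    Tendsto (fun z => (z - 0) ^ 4 * addSubFun L w z) (𝓝[≠] (0 : ℂ)) (𝓝 0) := by
  have hw' : -w ∉ L.lattice := fun h => hw (by simpa using neg_mem h)
  have hu : Tendsto (fun z : ℂ => z ^ 2 * L.weierstrassP z) (𝓝[≠] (0 : ℂ)) (𝓝 1) := by
    have := tendsto_sq_mul_P L (l := 0) (zero_mem _)
    simpa using this
  have hz : ∀ n : ℕ, n ≠ 0 → Tendsto (fun z : ℂ => z ^ n) (𝓝[≠] (0 : ℂ)) (𝓝 0) := by
    intro n hn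
    have hc : ContinuousAt (fun z : ℂ => z ^ n) 0 := by fun_prop
    have := hc.tendsto
    simp only [ne_eq, hn, not_false_eq_true, zero_pow] at this
    exact this.mono_left nhdsWithin_le_nhds
  have ha1 : Tendsto (fun z : ℂ => L.weierstrassP (z + w)) (𝓝[≠] (0 : ℂ))
      (𝓝 (L.weierstrassP w)) := by
    have hc : ContinuousAt (fun z : ℂ => L.weierstrassP (z + w)) 0 :=
      ContinuousAt.comp (g := L.weierstrassP) (f := fun z : ℂ => z + w)
        (by simpa using (analyticAt_P L hw).continuousAt) (by fun_prop)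
    have := hc.tendsto
    simp only [zero_add] at this
    exact this.mono_left nhdsWithin_le_nhds
  have ha2 : Tendsto (fun z : ℂ => L.weierstrassP (z - w)) (𝓝[≠] (0 : ℂ))
      (𝓝 (L.weierstrassP w)) := by
    have hc : ContinuousAt (fun z : ℂ => L.weierstrassP (z - w)) 0 :=
      ContinuousAt.comp (g := L.weierstrassP) (f := fun z : ℂ => z - w)
        (by simpa using (analyticAt_P L hw').continuousAt) (by fun_prop)
    have := hc.tendsto
    simp only [zero_sub, L.weierstrassP_neg] at this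
    exact this.mono_left nhdsWithin_le_nhds
  have h2 := hz 2 (by norm_num)
  have h4 := hz 4 (by norm_num)
  have key : Tendsto (fun z : ℂ =>
      (L.weierstrassP (z + w) + L.weierstrassP (z - w)) *
          (z ^ 2 * L.weierstrassP z - z ^ 2 * L.weierstrassP w) ^ 2
        - (2 * (z ^ 2 * L.weierstrassP z * L.weierstrassP w - z ^ 2 * (L.g₂ / 4))
            * (z ^ 2 * L.weierstrassP z + z ^ 2 * L.weierstrassP w) - z ^ 4 * L.g₃))
      (𝓝[≠] (0 : ℂ))
      (𝓝 ((L.weierstrassP w + L.weierstrassP w) * (1 - 0 * L.weierstrassP w) ^ 2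
        - (2 * (1 * L.weierstrassP w - 0 * (L.g₂ / 4)) * (1 + 0 * L.weierstrassP w)
            - 0 * L.g₃))) :=
    ((ha1.add ha2).mul ((hu.sub (h2.mul_const _)).pow 2)).sub
      (((((hu.mul_const _).sub (h2.mul_const _)).const_mul 2).mul
        (hu.add (h2.mul_const _))).sub (h4.mul_const _))
  have h0 : ((L.weierstrassP w + L.weierstrassP w) * (1 - 0 * L.weierstrassP w) ^ 2
        - (2 * (1 * L.weierstrassP w - 0 * (L.g₂ / 4)) * (1 + 0 * L.weierstrassP w)
            - 0 * L.g₃) : ℂ) = 0 := by ring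
  rw [h0] at key
  refine key.congr fun z => ?_
  unfold addSubFun
  ring

/-- order `≥ -3` by `order_ge_of_tendsto_zero`, hence `≥ -2` by parity (`order_ge_of_even`,
`addSubFun_neg`). -/
theorem order_addSubFun_zero (L : PeriodPair) {w : ℂ} (hw : w ∉ L.lattice) :
    ((-2 : ℤ) : WithTop ℤ) ≤ meromorphicOrderAt (addSubFun L w) 0 := by
  have hm : MeromorphicAt (addSubFun L w) 0 := meromorphic_addSubFun L w 0
  have h1 := order_ge_of_tendsto_zero hm 4 (tendsto_pow_four_mul_addSubFun L hw)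
  have h2 := order_ge_of_even hm (Eventually.of_forall fun t => by
    rw [zero_sub, zero_add, addSubFun_neg]) (-1) (by exact_mod_cast h1)
  exact_mod_cast h2

end Fermat.Agent.S15.Dict.AN
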