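/-
S15 / Dict / AN : the formula for `℘(z+w) + ℘(z-w)`.  Architect helper260.
(proof: helper29)
-/
import Fermat.Agent.S15.Dict.AN.AddSub.OrderOff
import Fermat.Agent.S15.Dict.AN.AddSub.OrderZero
import Fermat.Agent.S15.Dict.AN.AddSub.AtHalf
import Fermat.Agent.S15.Dict.AN.Tools.Even2

set_option autoImplicit false

namespace Fermat.Agent.S15.Dict.AN

/-- By `even_two`, `addSubFun L w = α ℘ + β` at all its continuity points off `Λ`.
Among the three half periods `h_i` (`isHalf_std L`) at most one satisfies `w + h_i ∈ Λ`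
(`IsHalf.sub_notMem`), so for two of them, say `h_i, h_j`: `addSubFun L w` is analytic at `h_i`
(`analyticAt_addSubFun`: `h_i + w ∉ Λ`, and `h_i - w ∉ Λ` because `2h_i ∈ Λ`) and vanishes there
(`addSubFun_half`), so `α e_i + β = 0 = α e_j + β`, `e_i ≠ e_j`: `α = β = 0`. -/
theorem addSubFun_eq_zero (L : PeriodPair) {z w : ℂ} (hz : z ∉ L.lattice) (hw : w ∉ L.lattice)
    (h1 : z + w ∉ L.lattice) (h2 : z - w ∉ L.lattice) : addSubFun L w z = 0 := by
  obtain ⟨α, β, hαβ⟩ := even_two L (meromorphic_addSubFun L w)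
    (fun z l hl => addSubFun_add_mem L w z l hl) (addSubFun_neg L w)
    (fun z hz => order_addSubFun_nonneg L w hz) (order_addSubFun_zero L hw)
  -- the value at a half period
  have key : ∀ {a b c : ℂ}, IsHalf L a b c → w + a ∉ L.lattice →
      α * L.weierstrassP a + β = 0 := by
    intro a b c H hwa
    have e1 : a + w ∉ L.lattice := by rwa [add_comm]
    have e2 : a - w ∉ L.lattice := by
      intro h
      apply hwa
      convert sub_mem H.two₁ h using 1
      ring
    have h3 := hαβ a H.not₁ (analyticAt_addSubFun L w H.not₁ e1 e2).continuousAt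
    rw [addSubFun_half H hw hwa] at h3
    exact h3.symm
  have key2 : ∀ {a b c : ℂ}, IsHalf L a b c → w + a ∉ L.lattice → w + b ∉ L.lattice →
      α = 0 ∧ β = 0 := by
    intro a b c H ha hb
    have k1 := key H ha
    have k2 := key H.swap₁₂ hb
    have h3 : α * (L.weierstrassP a - L.weierstrassP b) = 0 := by linear_combination k1 - k2
    have hα : α = 0 := (mul_eq_zero.mp h3).resolve_right (sub_ne_zero.mpr H.ne₁₂)
    refine ⟨hα, ?_⟩
    rw [hα, zero_mul, zero_add] at k1
    exact k1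
  have excl : ∀ {a b c : ℂ}, IsHalf L a b c → w + a ∈ L.lattice → w + b ∉ L.lattice := by
    intro a b c H ha hb
    apply H.sub_notMem
    convert sub_mem ha hb using 1
    ring
  have H := isHalf_std L
  have hfin : α = 0 ∧ β = 0 := by
    by_cases c1 : w + L.ω₁ / 2 ∈ L.lattice
    · exact key2 H.rot (excl H c1) (excl H.swap₂₃ c1)
    · by_cases c2 : w + L.ω₂ / 2 ∈ L.lattice
      · exact key2 H.swap₂₃ c1 (excl H.rot c2)
      · exact key2 H c1 c2
  have h3 := hαβ z hz (analyticAt_addSubFun L w hz h1 h2).continuousAt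
  rw [h3, hfin.1, hfin.2]
  ring

/-- `(℘(z+w) + ℘(z-w)) (℘z - ℘w)² = 2 (℘z ℘w - g₂/4)(℘z + ℘w) - g₃`. -/
theorem P_add_add_P_sub (L : PeriodPair) {z w : ℂ} (hz : z ∉ L.lattice) (hw : w ∉ L.lattice)
    (h1 : z + w ∉ L.lattice) (h2 : z - w ∉ L.lattice) :
    (L.weierstrassP (z + w) + L.weierstrassP (z - w)) * (L.weierstrassP z - L.weierstrassP w) ^ 2
      = 2 * (L.weierstrassP z * L.weierstrassP w - L.g₂ / 4)
        * (L.weierstrassP z + L.weierstrassP w) - L.g₃ :=
  sub_eq_zero.mp (addSubFun_eq_zero L hz hw h1 h2)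

end Fermat.Agent.S15.Dict.AN
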